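/-
T14 (S14) / SI / KU-split : abstract valued-field core (helper78).
`root_eq_one_of_decomp`: uniform ultrametric splitting criterion (argument of helper74, board 637).
-/
import Mathlib
set_option autoImplicit false
open Finset Polynomial

namespace Fermat.Agent.S14_helper78

section Val

variable {F : Type*} [Field F] {Γ₀ : Type*} [LinearOrderedCommGroupWithZero Γ₀] (w : Valuation F Γ₀)

lemma val_eq_one_of_pow_eq_one {n : ℕ} (hn : n ≠ 0) {ζ : F} (h : ζ ^ n = 1) : w ζ = 1 := by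
  have : w ζ ^ n = 1 := by rw [← map_pow, h, map_one]
  exact (pow_eq_one_iff_of_nonneg zero_le hn).mp this

lemma val_geom_sum_le_one {n : ℕ} (hn : n ≠ 0) {ζ : F} (h : ζ ^ n = 1) (j : ℕ) :
    w (∑ i ∈ Finset.range j, ζ ^ i) ≤ 1 := by
  refine Valuation.map_sum_le _ fun i _ => ?_
  rw [map_pow, val_eq_one_of_pow_eq_one w hn h, one_pow]

lemma val_pow_sub_one_le {n : ℕ} (hn : n ≠ 0) {ζ : F} (h : ζ ^ n = 1) (j : ℕ) :
    w (ζ ^ j - 1) ≤ w (ζ - 1) := by
  rw [← mul_geom_sum, map_mul]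
  exact mul_le_of_le_one_right' (val_geom_sum_le_one w hn h j)

/-- all primitive `p`-th roots of unity have the same distance to `1`. -/
lemma val_pow_sub_one_eq {p : ℕ} (hp : p.Prime) {ζ : F} (hζ : IsPrimitiveRoot ζ p) {j : ℕ}
    (hj : ζ ^ j ≠ 1) : w (ζ ^ j - 1) = w (ζ - 1) := by
  have hp0 := hp.ne_zero
  refine le_antisymm (val_pow_sub_one_le w hp0 hζ.pow_eq_one j) ?_
  -- ζ is a power of ζ^j
  have hcop : Nat.Coprime j p := by
    rw [Nat.coprime_comm, hp.coprime_iff_not_dvd]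
    intro hdvd
    exact hj ((hζ.pow_eq_one_iff_dvd j).mpr hdvd)
  have hprim : IsPrimitiveRoot (ζ ^ j) p := hζ.pow_of_coprime j hcop
  have : NeZero p := ⟨hp0⟩
  obtain ⟨i, -, hi⟩ := hprim.eq_pow_of_pow_eq_one hζ.pow_eq_one
  have := val_pow_sub_one_le w hp0 hprim.pow_eq_one i
  rwa [hi] at this

/-- `w p = w (ζ - 1) ^ (p - 1)` -/
lemma val_prime_eq {p : ℕ} (hp : p.Prime) {ζ : F} (hζ : IsPrimitiveRoot ζ p) :
    w (p : F) = w (ζ - 1) ^ (p - 1) := by
  obtain ⟨n, rfl⟩ : ∃ n, p = n + 1 := ⟨p - 1, by have := hp.one_lt; omega⟩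
  have hprod := IsPrimitiveRoot.prod_one_sub_pow_eq_order (R := F) (n := n) (μ := ζ) hζ
  have h1 : ((n + 1 : ℕ) : F) = ∏ k ∈ Finset.range n, (1 - ζ ^ (k + 1)) := by
    rw [hprod]; push_cast; ring
  rw [h1, map_prod, Nat.add_sub_cancel]
  have : ∀ k ∈ Finset.range n, w (1 - ζ ^ (k + 1)) = w (ζ - 1) := by
    intro k hk
    rw [Finset.mem_range] at hk
    rw [← Valuation.map_neg, neg_sub]
    refine val_pow_sub_one_eq w hp hζ ?_
    intro h
    have := (hζ.pow_eq_one_iff_dvd (k + 1)).mp h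
    have := Nat.le_of_dvd (by omega) this
    omega
  rw [Finset.prod_congr rfl this, Finset.prod_const, Finset.card_range]

/-- **Uniform splitting criterion, abstract valuation form** (ultrametric argument).
`γ ^ p ≡ b ^ p` modulo more than `(ζ-1)^p`, `b` a unit fixed by `τ`, `τ` preserving the maximal
ideal, `τ ζ = ζ`, `τ γ = ζ^j γ`  ⟹  `ζ ^ j = 1`. -/
theorem root_eq_one_of_decomp {p : ℕ} (hp : p.Prime) {ζ γ b : F} (hζ : IsPrimitiveRoot ζ p)
    (hb : w b = 1) (hclose : w (γ ^ p - b ^ p) < w (ζ - 1) ^ p)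
    (τ : F ≃+* F) (hτm : ∀ z, w z < 1 → w (τ z) < 1) (hτζ : τ ζ = ζ) (hτb : τ b = b)
    {j : ℕ} (hτγ : τ γ = ζ ^ j * γ) : ζ ^ j = 1 := by
  classical
  by_contra hj
  have hp0 := hp.ne_zero
  have : NeZero p := ⟨hp0⟩
  have hζp := hζ.pow_eq_one
  have hζ1 : w ζ = 1 := val_eq_one_of_pow_eq_one w hp0 hζp
  have hl0 : ζ - 1 ≠ 0 := sub_ne_zero.mpr (hζ.ne_one hp.one_lt)
  have hlv : w (ζ - 1) ≠ 0 := (Valuation.ne_zero_iff _).mpr hl0
  -- existence of i0
  have hex : ∃ μ ∈ nthRootsFinset p (1 : F), w (γ - μ * b) < w (ζ - 1) := by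
    by_contra hcon
    push Not at hcon
    have h1 := hζ.pow_sub_pow_eq_prod_sub_mul γ b hp.pos
    have h2 : w (ζ - 1) ^ p ≤ w (γ ^ p - b ^ p) := by
      rw [h1, map_prod]
      calc w (ζ - 1) ^ p = ∏ _μ ∈ nthRootsFinset p (1 : F), w (ζ - 1) := by
            rw [Finset.prod_const, hζ.card_nthRootsFinset]
        _ ≤ ∏ μ ∈ nthRootsFinset p (1 : F), w (γ - μ * b) :=
            Finset.prod_le_prod' hcon
    exact absurd hclose (not_lt.mpr h2)
  obtain ⟨μ, hμ, hμlt⟩ := hex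
  rw [mem_nthRootsFinset hp.pos] at hμ
  have hμ1 : w μ = 1 := val_eq_one_of_pow_eq_one w hp0 hμ
  obtain ⟨i, -, rfl⟩ := hζ.eq_pow_of_pow_eq_one hμ
  -- z := (γ - ζ^i b)/λ has w z < 1
  set z : F := (γ - ζ ^ i * b) / (ζ - 1) with hz
  have hzlt : w z < 1 := by
    rw [hz, map_div₀]
    exact (div_lt_one₀ (zero_lt_iff.mpr hlv)).mpr hμlt
  have hτz : w (τ z) < 1 := hτm z hzlt
  have hτz' : τ z = (ζ ^ j * γ - ζ ^ i * b) / (ζ - 1) := by
    rw [hz, map_div₀, map_sub, map_sub, map_mul, map_pow, map_one, hτγ, hτζ, hτb]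
  -- difference
  have hdiff : ζ ^ j * z - τ z = ζ ^ i * b * (1 - ζ ^ j) / (ζ - 1) := by
    rw [hτz', hz]; field_simp; ring
  have hlt2 : w (ζ ^ j * z - τ z) < 1 := by
    refine lt_of_le_of_lt (Valuation.map_sub _ _ _) (max_lt ?_ hτz)
    rw [map_mul, map_pow, hζ1, one_pow, one_mul]; exact hzlt
  rw [hdiff, map_div₀, map_mul, map_mul, map_pow, hζ1, one_pow, one_mul, hb, one_mul,
    ← Valuation.map_neg, neg_sub, val_pow_sub_one_eq w hp hζ hj, div_self hlv] at hlt2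
  exact lt_irrefl _ hlt2

end Val

end Fermat.Agent.S14_helper78
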